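import Fermat.Agent.PrimeEquidist.Basic
import Fermat.Agent.Equidistribution.Criterion
import Mathlib.MeasureTheory.Group.AddCircle
import Mathlib.Analysis.SpecialFunctions.Complex.Arg

/-!
# Equidistribution of angles on the primes

Points of absolute value one are equidistributed on the circle when their positive powers have
mean `0`; then every arc gets its length.
-/

set_option autoImplicit false
set_option linter.unusedSectionVars false

noncomputable section

open NumberField IsDedekindDomain MeasureTheory Filter Topology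
open FA.Hecke (HasMean wSum hasMean_one hasMean_congr mem_primesLE primesLE)
open scoped Classical Real ComplexConjugate

namespace FA.PrimeEquidist

variable {K : Type*} [Field K] [NumberField K]

/-- The point of the circle with the angle of `z`. -/
def circlePoint (z : ℂ) : AddCircle (1 : ℝ) := ((Complex.arg z / (2 * π) : ℝ) : AddCircle (1 : ℝ))

theorem fourier_circlePoint {z : ℂ} (hz : ‖z‖ = 1) (j : ℤ) : fourier j (circlePoint z) = z ^ j := by
  have h := Complex.norm_mul_exp_arg_mul_I z
  rw [hz, Complex.ofReal_one, one_mul] at h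
  rw [circlePoint, fourier_coe_apply]
  conv_rhs => rw [← h, ← Complex.exp_int_mul]
  congr 1
  have : (π : ℂ) ≠ 0 := Complex.ofReal_ne_zero.2 Real.pi_ne_zero
  push_cast
  field_simp

theorem circlePoint_mem_arc {z : ℂ} (hz : ‖z‖ = 1) (a b : ℝ) :
    circlePoint z ∈ Metric.closedBall (((a + b) / 2 : ℝ) : AddCircle (1 : ℝ)) ((b - a) / 2) ↔
      ∃ t ∈ Set.Icc a b, z = Complex.exp (2 * π * Complex.I * t) := by
  have h := Complex.norm_mul_exp_arg_mul_I z
  rw [hz, Complex.ofReal_one, one_mul] at h
  have hπ : (π : ℂ) ≠ 0 := Complex.ofReal_ne_zero.2 Real.pi_ne_zero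
  rw [Metric.mem_closedBall, dist_eq_norm, circlePoint, ← AddCircle.coe_sub, UnitAddCircle.norm_eq]
  constructor
  · intro hle
    set k := round (Complex.arg z / (2 * π) - (a + b) / 2)
    obtain ⟨h1, h2⟩ := abs_le.1 hle
    refine ⟨Complex.arg z / (2 * π) - k, ⟨by linarith, by linarith⟩, ?_⟩
    conv_lhs => rw [← h]
    rw [Complex.exp_eq_exp_iff_exists_int]
    refine ⟨k, ?_⟩
    push_cast
    field_simp
    ring
  · rintro ⟨t, ⟨ht1, ht2⟩, ht⟩
    conv at ht => lhs; rw [← h]
    obtain ⟨k, hk⟩ := Complex.exp_eq_exp_iff_exists_int.1 ht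
    have hs : Complex.arg z = (t + k) * (2 * π) := by
      have := congrArg Complex.im hk
      simp at this
      linarith
    refine (round_le _ k).trans ?_
    rw [hs, mul_div_cancel_right₀ _ (by positivity), abs_le]
    constructor <;> linarith

/-- Positive powers of mean `0` suffice. -/
theorem equidistributed_circle {c : HeightOneSpectrum (𝓞 K) → AddCircle (1 : ℝ)}
    (h : ∀ j : ℕ, j ≠ 0 → HasMean (fun v => fourier (j : ℤ) (c v)) 0) :
    Equidistributed AddCircle.haarAddCircle c := by
  refine equidistributed_of_dense (S := Set.range (fourier (T := 1)))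
    ((Submodule.dense_iff_topologicalClosure_eq_top).2 span_fourier_closure_eq_top) ?_
  rintro _ ⟨k, rfl⟩
  rw [show ∫ x, fourier k x ∂AddCircle.haarAddCircle = if k = 0 then 1 else 0 from
    FA.Equidist.circMean_fourier k]
  rcases eq_or_ne k 0 with rfl | hk
  · simpa using (hasMean_one K).map Complex.ofRealCLM
  · rw [if_neg hk]
    obtain ⟨j, rfl | rfl⟩ := k.eq_nat_or_neg
    · exact h j (by simpa using hk)
    · simp only [fourier_neg]
      simpa using (h j (by simpa using hk)).map (Complex.conjCLE : ℂ →L[ℝ] ℂ)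

/-- Values of absolute value one up to finitely many, with positive powers of mean `0`. -/
theorem equidistributed_angles {a : HeightOneSpectrum (𝓞 K) → ℂ}
    {S : Set (HeightOneSpectrum (𝓞 K))} (hS : S.Finite) (hle : ∀ v, ‖a v‖ ≤ 1)
    (ha : ∀ v ∉ S, ‖a v‖ = 1) (h : ∀ j : ℕ, j ≠ 0 → HasMean (fun v => a v ^ j) 0) :
    Equidistributed AddCircle.haarAddCircle fun v => circlePoint (a v) := by
  refine equidistributed_circle fun j hj => hasMean_congr S hS (B := 2) (fun v => ?_)
    (fun v hv _ => ?_) (h j hj)
  · refine (norm_sub_le _ _).trans ?_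
    rw [norm_pow]
    have h1 : ‖fourier (j : ℤ) (circlePoint (a v))‖ ≤ 1 :=
      (ContinuousMap.norm_coe_le_norm _ _).trans (fourier_norm _).le
    linarith [pow_le_one₀ (norm_nonneg _) (hle v) (n := j)]
  · rw [fourier_circlePoint (ha v hv), zpow_natCast]

/-- **Every arc gets its length.** -/
theorem tendsto_card_arc {z : HeightOneSpectrum (𝓞 K) → ℂ}
    {S : Set (HeightOneSpectrum (𝓞 K))} (hS : S.Finite) (hz : ∀ v ∉ S, ‖z v‖ = 1)
    (h : Equidistributed AddCircle.haarAddCircle fun v => circlePoint (z v))
    {a b : ℝ} (hab : a ≤ b) (hba : b ≤ a + 1) :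
    Tendsto (fun n : ℕ => Real.log n / n * (Nat.card {v : HeightOneSpectrum (𝓞 K) //
      Ideal.absNorm v.asIdeal ≤ n ∧ ∃ t ∈ Set.Icc a b, z v = Complex.exp (2 * π * Complex.I * t)} :
        ℝ)) atTop (𝓝 (b - a)) := by
  set B := Metric.closedBall (((a + b) / 2 : ℝ) : AddCircle (1 : ℝ)) ((b - a) / 2) with hB
  have hvol : (AddCircle.haarAddCircle : Measure (AddCircle (1 : ℝ))) = volume := by
    rw [AddCircle.volume_eq_smul_haarAddCircle, ENNReal.ofReal_one, one_smul]
  have hnull : AddCircle.haarAddCircle (frontier B) = 0 := by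
    rw [hvol]
    refine measure_mono_null ?_ (ae_eq_set.1 (AddCircle.closedBall_ae_eq_ball
      (x := (((a + b) / 2 : ℝ) : AddCircle (1 : ℝ))) (ε := (b - a) / 2))).1
    exact fun x hx => ⟨Metric.isClosed_closedBall.frontier_subset hx, fun hx' => hx.2
      (interior_maximal Metric.ball_subset_closedBall Metric.isOpen_ball hx')⟩
  have hm : AddCircle.haarAddCircle.real B = b - a := by
    rw [hvol, measureReal_def, hB, AddCircle.volume_closedBall,
      ENNReal.toReal_ofReal (le_min one_pos.le (by linarith)), min_eq_right (by linarith)]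
    ring
  have h1 : HasMean (fun v => if ∃ t ∈ Set.Icc a b, z v = Complex.exp (2 * π * Complex.I * t)
      then (1 : ℝ) else 0) (b - a) := by
    rw [← hm]
    refine hasMean_congr S hS (B := 1) (fun v => ?_) (fun v hv _ => ?_) (h.hasMean_mem hnull)
    · unfold Set.indicator; split_ifs <;> simp
    · simp only [Set.indicator, hB, circlePoint_mem_arc (hz v hv)]
  refine (h1.comp tendsto_natCast_atTop_atTop).congr fun n => ?_
  rw [Function.comp_apply, wSum, Nat.floor_natCast, smul_eq_mul, Finset.sum_boole]
  congr 2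
  exact (Nat.subtype_card _ (by simp [mem_primesLE])).symm

end FA.PrimeEquidist

end
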