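import Fermat.Agent.NaturalChebotarev.Counting
import Mathlib.MeasureTheory.Integral.Bochner.Set
import Mathlib.MeasureTheory.Measure.Regular
import Mathlib.Topology.UrysohnsLemma

/-!
# Equidistribution of a function on the primes

A function from the primes to a compact space is equidistributed as soon as the means of functions
with dense span are their integrals.  Then sets with null boundary get their measure, and nonempty
open sets infinitely many primes of degree one.
-/

set_option autoImplicit false
set_option linter.unusedSectionVars false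

noncomputable section

open NumberField IsDedekindDomain MeasureTheory Filter Topology
open FA.Hecke (HasMean wSum hasMean_one hasMean_congr)
open scoped Classical

namespace FA.PrimeEquidist

variable {K : Type*} [Field K] [NumberField K]
variable {X : Type*} [TopologicalSpace X] [CompactSpace X] [MeasurableSpace X] [BorelSpace X]
  {μ : Measure X} [IsProbabilityMeasure μ] {c : HeightOneSpectrum (𝓞 K) → X}

variable (μ) in
/-- **Every continuous function has its integral as mean over the primes.** -/
def Equidistributed (c : HeightOneSpectrum (𝓞 K) → X) : Prop :=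
  ∀ F : C(X, ℂ), HasMean (fun v => F (c v)) (∫ x, F x ∂μ)

theorem integrable_continuousMap {E : Type*} [NormedAddCommGroup E] [NormedSpace ℝ E]
    [SecondCountableTopology E] (F : C(X, E)) : Integrable F μ :=
  F.continuous.integrable_of_hasCompactSupport (HasCompactSupport.of_compactSpace _)

theorem eventually_nonneg : ∀ᶠ x : ℝ in atTop, 0 ≤ Real.log x / x :=
  (eventually_ge_atTop 1).mono fun x hx => div_nonneg (Real.log_nonneg hx) (by linarith)

/-- **Functions with dense span suffice.** -/
theorem equidistributed_of_dense {S : Set C(X, ℂ)}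
    (hS : Dense (Submodule.span ℂ S : Set C(X, ℂ)))
    (h : ∀ f ∈ S, HasMean (fun v => f (c v)) (∫ x, f x ∂μ)) : Equidistributed μ c := by
  intro F
  have hspan : ∀ P ∈ Submodule.span ℂ S, HasMean (fun v => P (c v)) (∫ x, P x ∂μ) := fun P hP => by
    induction hP using Submodule.span_induction with
    | mem f hf => exact h f hf
    | zero =>
      simp only [HasMean, wSum, ContinuousMap.zero_apply, Finset.sum_const_zero, smul_zero,
        integral_zero]
      exact tendsto_const_nhds
    | add f g _ _ hf hg =>
      simp only [ContinuousMap.add_apply]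
      rw [integral_add (integrable_continuousMap f) (integrable_continuousMap g)]
      exact hf.add hg
    | smul a f _ hf =>
      simp only [ContinuousMap.smul_apply, smul_eq_mul, integral_const_mul]
      exact hf.map (a • ContinuousLinearMap.id ℝ ℂ)
  refine Metric.tendsto_nhds.2 fun ε hε => ?_
  obtain ⟨P, hP, hPF⟩ := Metric.mem_closure_iff.1 (hS F) (ε / 6) (by positivity)
  rw [dist_eq_norm] at hPF
  filter_upwards [eventually_nonneg, (hasMean_one K).eventually (eventually_le_nhds one_lt_two),
    Metric.tendsto_nhds.1 (hspan P hP) (ε / 2) (half_pos hε)] with x hx0 hx2 hx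
  rw [dist_eq_norm] at hx ⊢
  have hle : ∀ y, ‖F y - P y‖ ≤ ε / 6 := fun y =>
    ((ContinuousMap.norm_coe_le_norm (F - P) y)).trans hPF.le
  have n1 : ‖(Real.log x / x) • wSum (fun v => F (c v)) x -
      (Real.log x / x) • wSum (fun v => P (c v)) x‖ ≤ 2 * (ε / 6) := by
    rw [← smul_sub, norm_smul, Real.norm_of_nonneg hx0, wSum, wSum, ← Finset.sum_sub_distrib]
    refine le_trans (mul_le_mul_of_nonneg_left (norm_sum_le_of_le _ fun v _ => hle _) hx0) ?_
    refine le_trans (le_of_eq ?_) (mul_le_mul_of_nonneg_right hx2 (by positivity))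
    simp only [wSum, smul_eq_mul, Finset.sum_const, nsmul_eq_mul, mul_one]
    ring
  have n2 : ‖(∫ y, P y ∂μ) - ∫ y, F y ∂μ‖ ≤ ε / 6 := by
    rw [← integral_sub (integrable_continuousMap P) (integrable_continuousMap F)]
    refine (norm_integral_le_of_norm_le_const (Eventually.of_forall fun y => ?_)).trans
      (le_of_eq (by rw [probReal_univ, mul_one]))
    rw [norm_sub_rev]
    exact hle y
  calc _ ≤ _ := norm_sub_le_norm_sub_add_norm_sub _ ((Real.log x / x) • wSum (fun v => P (c v)) x) _
    _ ≤ _ + (_ + _) := add_le_add n1
        (norm_sub_le_norm_sub_add_norm_sub _ (∫ y, P y ∂μ) _)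
    _ < ε := by linarith

/-- Real functions. -/
theorem Equidistributed.real (h : Equidistributed μ c) (f : C(X, ℝ)) :
    HasMean (fun v => f (c v)) (∫ x, f x ∂μ) := by
  have h1 := (h ((⟨fun r : ℝ => (r : ℂ), Complex.continuous_ofReal⟩ : C(ℝ, ℂ)).comp f)).map
    Complex.reCLM
  simpa [integral_complex_ofReal] using h1

/-- The upper bound. -/
theorem Equidistributed.eventually_indicator_lt [T2Space X] [μ.Regular] (h : Equidistributed μ c)
    {A : Set X} {a : ℝ} (ha : μ.real (closure A) < a) :
    ∀ᶠ x : ℝ in atTop, (Real.log x / x) * wSum (fun v => A.indicator (fun _ => (1 : ℝ)) (c v)) x < a := by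
  have ha' : μ (closure A) < ENNReal.ofReal a := by
    rwa [← ENNReal.ofReal_toReal (measure_ne_top μ (closure A)),
      ENNReal.ofReal_lt_ofReal_iff (lt_of_le_of_lt measureReal_nonneg ha)]
  obtain ⟨U, hAU, hU, hUa⟩ := (closure A).exists_isOpen_lt_of_lt _ ha'
  obtain ⟨f, hf0, hf1, hf⟩ := exists_continuous_zero_one_of_isClosed hU.isClosed_compl
    isClosed_closure (Set.disjoint_left.2 fun x hx hx' => hx (hAU hx'))
  have hint : ∫ x, f x ∂μ < a := by
    refine lt_of_le_of_lt ?_ (ENNReal.toReal_lt_of_lt_ofReal hUa)
    refine (integral_mono (integrable_continuousMap f)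
      ((integrable_const (1 : ℝ)).indicator hU.measurableSet) fun x => ?_).trans (le_of_eq ?_)
    · by_cases hx : x ∈ U
      · rw [Set.indicator_of_mem hx]; exact (hf x).2
      · rw [Set.indicator_of_notMem hx]; exact (hf0 hx).le
    · rw [integral_indicator_const _ hU.measurableSet, smul_eq_mul, mul_one]
      rfl
  filter_upwards [eventually_nonneg, (h.real f).eventually (eventually_lt_nhds hint)] with x hx0 hx
  refine lt_of_le_of_lt (mul_le_mul_of_nonneg_left (Finset.sum_le_sum fun v _ => ?_) hx0) hx
  by_cases hv : c v ∈ A
  · rw [Set.indicator_of_mem hv]; exact (hf1 (subset_closure hv)).ge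
  · rw [Set.indicator_of_notMem hv]; exact (hf _).1

theorem measureReal_closure {A : Set X} (hA : μ (frontier A) = 0) :
    μ.real (closure A) = μ.real A := by
  refine congrArg ENNReal.toReal (le_antisymm ?_ (measure_mono subset_closure))
  rw [closure_eq_self_union_frontier]
  exact (measure_union_le _ _).trans (by rw [hA, add_zero])

/-- **Sets with null boundary get their measure.** -/
theorem Equidistributed.hasMean_mem [T2Space X] [μ.Regular] (h : Equidistributed μ c)
    {A : Set X} (hA : μ (frontier A) = 0) :
    HasMean (fun v => A.indicator (fun _ => (1 : ℝ)) (c v)) (μ.real A) := by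
  have hsum : μ.real A + μ.real (closure Aᶜ) = 1 := by
    have hf : μ (frontier Aᶜ) = 0 := by rwa [frontier_compl]
    rw [measureReal_closure hf, ← probReal_univ (μ := μ)]
    exact measureReal_add_measureReal_compl₀ (nullMeasurableSet_of_null_frontier hA)
  refine tendsto_order.2 ⟨fun a ha => ?_, fun a ha => ?_⟩
  · filter_upwards [(hasMean_one K).eventually (eventually_gt_nhds
        (show 1 - (μ.real A - a) / 2 < 1 by linarith)),
      h.eventually_indicator_lt (A := Aᶜ) (a := 1 - μ.real A + (μ.real A - a) / 2)
        (by linarith)] with x hx hx'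
    rw [smul_eq_mul] at hx ⊢
    have e : wSum (fun _ : HeightOneSpectrum (𝓞 K) => (1 : ℝ)) x =
        wSum (fun v => A.indicator (fun _ => (1 : ℝ)) (c v)) x +
          wSum (fun v => Aᶜ.indicator (fun _ => (1 : ℝ)) (c v)) x := by
      rw [wSum, wSum, wSum, ← Finset.sum_add_distrib]
      refine Finset.sum_congr rfl fun v _ => ?_
      by_cases hv : c v ∈ A <;> simp [Set.indicator, hv]
    rw [e, mul_add] at hx
    linarith
  · exact h.eventually_indicator_lt (lt_of_eq_of_lt (measureReal_closure hA) ha)

/-- **A nonempty open set meets infinitely many primes of degree one.** -/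
theorem Equidistributed.infinite_degree_one [T2Space X] [Measure.IsOpenPosMeasure μ]
    (h : Equidistributed μ c) {U : Set X} (hU : IsOpen U) (hne : U.Nonempty) :
    {v : HeightOneSpectrum (𝓞 K) | (Ideal.absNorm v.asIdeal).Prime ∧ c v ∈ U}.Infinite := by
  intro hfin
  obtain ⟨p, hp⟩ := hne
  obtain ⟨f, hf0, hf1, hf⟩ := exists_continuous_zero_one_of_isClosed hU.isClosed_compl
    (isClosed_singleton (x := p)) (Set.disjoint_singleton_right.2 fun h' => h' hp)
  have hpos : 0 < ∫ x, f x ∂μ :=
    f.continuous.integral_pos_of_hasCompactSupport_nonneg_nonzero (x := p)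
      (HasCompactSupport.of_compactSpace _) (fun x => (hf x).1)
      (by rw [hf1 rfl]; exact one_ne_zero)
  have h0 : HasMean (fun v => f (c v)) (0 : ℝ) := by
    refine hasMean_congr _ hfin (B := 1) (fun v => ?_) (fun v hv hp => ?_)
      (b := fun _ => (0 : ℝ)) (by simp [HasMean, wSum])
    · rw [sub_zero, Real.norm_of_nonneg (hf _).1]; exact (hf _).2
    · exact hf0 fun hv' => hv ⟨hp, hv'⟩
  exact hpos.ne (tendsto_nhds_unique h0 (h.real f))

end FA.PrimeEquidist

end
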